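import Mathlib
import Fermat.Agent.MUL.S24.JFun
import Fermat.Agent.MUL.Orig.S24.GaloisDatum

section MergeWrap_S24_Hol -- from S24/Hol.lean

set_option autoImplicit false

noncomputable section

namespace Fermat.Agent.S24

open UpperHalfPlane
open scoped MatrixGroups Manifold Topology

/-! ### Holomorphic functions form a `SL(2,ℤ)`-stable subalgebra containing the `j_d` -/

theorem isHol_algebraMap (a : Kbar) : IsHol (algebraMap Kbar Fun a) :=
  (mdifferentiable_const : MDifferentiable 𝓘(ℂ) 𝓘(ℂ) (fun _ : ℍ => iota a))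

theorem IsHol.add {f g : Fun} (hf : IsHol f) (hg : IsHol g) : IsHol (f + g) :=
  MDifferentiable.add hf hg

theorem IsHol.mul {f g : Fun} (hf : IsHol f) (hg : IsHol g) : IsHol (f * g) :=
  MDifferentiable.mul hf hg

theorem mdifferentiable_sl_smul (γ : SL(2, ℤ)) :
    MDifferentiable 𝓘(ℂ) 𝓘(ℂ) (fun τ : ℍ => γ • τ) := by
  have h := UpperHalfPlane.mdifferentiable_smul
    (g := (Matrix.SpecialLinearGroup.mapGL ℝ γ : GL (Fin 2) ℝ)) (by simp)
  exact h

theorem mdifferentiable_scale (d : ℕ) [NeZero d] :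
    MDifferentiable 𝓘(ℂ) 𝓘(ℂ) (scale d) := by
  intro τ
  have h1 : MDifferentiableAt 𝓘(ℂ) 𝓘(ℂ) (fun τ : ℍ => (d : ℂ) * (τ : ℂ)) τ :=
    (mdifferentiableAt_const (c := (d : ℂ))).mul (mdifferentiable_coe τ)
  have h2 : MDifferentiableAt 𝓘(ℂ) 𝓘(ℂ) ofComplex ((d : ℂ) * (τ : ℂ)) :=
    mdifferentiableAt_ofComplex (scale d τ).im_pos
  have h3 := h2.comp τ h1
  refine h3.congr_of_eventuallyEq (Filter.Eventually.of_forall fun σ => ?_)
  show scale d σ = ofComplex ((d : ℂ) * (σ : ℂ))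
  exact (ofComplex_apply (scale d σ)).symm

theorem IsHol.sl_smul {f : Fun} (hf : IsHol f) (γ : SL(2, ℤ)) : IsHol (γ • f) := by
  have h : MDifferentiable 𝓘(ℂ) 𝓘(ℂ) ((f : ℍ → ℂ) ∘ fun τ : ℍ => γ⁻¹ • τ) :=
    MDifferentiable.comp hf (mdifferentiable_sl_smul γ⁻¹)
  exact h

theorem isHol_jd (d : ℕ) [NeZero d] : IsHol (jd d) := by
  have h : MDifferentiable 𝓘(ℂ) 𝓘(ℂ) ((jFun : ℍ → ℂ) ∘ scale d) :=
    MDifferentiable.comp isHol_jFun (mdifferentiable_scale d)
  exact h

theorem isHol_of_mem_gens {M : ℕ} {f : Fun} (hf : f ∈ gens M) : IsHol f := by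
  obtain ⟨d, hd, -, γ, rfl⟩ := hf
  exact (isHol_jd d).sl_smul γ

theorem isHol_of_mem_AL_aux {M : ℕ} {f : Fun} (hf : f ∈ AL M) : IsHol f := by
  induction hf using Algebra.adjoin_induction with
  | mem x hx => exact isHol_of_mem_gens hx
  | algebraMap a => exact isHol_algebraMap a
  | add x y _ _ hx hy => exact hx.add hy
  | mul x y _ _ hx hy => exact hx.mul hy

/-! ### The identity theorem and the order of vanishing -/

theorem IsHol.differentiableOn {f : Fun} (hf : IsHol f) :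
    DifferentiableOn ℂ (fun z : ℂ => f (ofComplex z)) {z : ℂ | 0 < z.im} :=
  UpperHalfPlane.mdifferentiable_iff.mp hf

theorem IsHol.analyticOnNhd {f : Fun} (hf : IsHol f) :
    AnalyticOnNhd ℂ (fun z : ℂ => f (ofComplex z)) {z : ℂ | 0 < z.im} :=
  hf.differentiableOn.analyticOnNhd (isOpen_lt continuous_const Complex.continuous_im)

theorem IsHol.analyticAt {f : Fun} (hf : IsHol f) (τ : ℍ) :
    AnalyticAt ℂ (fun z : ℂ => f (ofComplex z)) (τ : ℂ) :=
  hf.analyticOnNhd τ τ.im_pos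

theorem IsHol.eq_zero_of_analyticOrderAt_eq_top {f : Fun} (hf : IsHol f) (τ : ℍ)
    (h : analyticOrderAt (fun z : ℂ => f (ofComplex z)) (τ : ℂ) = ⊤) : f = 0 := by
  rw [analyticOrderAt_eq_top] at h
  have hpre : IsPreconnected {z : ℂ | 0 < z.im} := (convex_halfSpace_im_gt 0).isPreconnected
  have key := hf.analyticOnNhd.eqOn_zero_of_preconnected_of_eventuallyEq_zero hpre τ.im_pos h
  ext σ
  have := key σ.im_pos
  simpa [ofComplex_apply] using this

theorem analyticOrderAt_zero_fun (τ : ℍ) :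
    analyticOrderAt (fun z : ℂ => (0 : Fun) (ofComplex z)) (τ : ℂ) = ⊤ := by
  rw [analyticOrderAt_eq_top]
  exact Filter.Eventually.of_forall fun z => rfl

theorem IsHol.analyticOrderAt_eq_top_iff {f : Fun} (hf : IsHol f) (τ : ℍ) :
    analyticOrderAt (fun z : ℂ => f (ofComplex z)) (τ : ℂ) = ⊤ ↔ f = 0 :=
  ⟨hf.eq_zero_of_analyticOrderAt_eq_top τ, fun h => h ▸ analyticOrderAt_zero_fun τ⟩

theorem IsHol.analyticOrderAt_mul {f g : Fun} (hf : IsHol f) (hg : IsHol g) (τ : ℍ) :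
    analyticOrderAt (fun z : ℂ => (f * g) (ofComplex z)) (τ : ℂ) =
      analyticOrderAt (fun z : ℂ => f (ofComplex z)) (τ : ℂ) +
        analyticOrderAt (fun z : ℂ => g (ofComplex z)) (τ : ℂ) :=
  _root_.analyticOrderAt_mul (hf.analyticAt τ) (hg.analyticAt τ)

theorem IsHol.eq_zero_or_eq_zero_of_mul_eq_zero {f g : Fun} (hf : IsHol f) (hg : IsHol g)
    (h : f * g = 0) : f = 0 ∨ g = 0 := by
  have τ : ℍ := ⟨Complex.I, by simp⟩
  have h1 := hf.analyticOrderAt_mul hg τ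
  rw [h, analyticOrderAt_zero_fun] at h1
  rcases WithTop.add_eq_top.mp h1.symm with h2 | h2
  · exact Or.inl (hf.eq_zero_of_analyticOrderAt_eq_top τ h2)
  · exact Or.inr (hg.eq_zero_of_analyticOrderAt_eq_top τ h2)

theorem isDomain_AL_aux (M : ℕ) : IsDomain (AL M) := by
  have : Nontrivial (AL M) := by
    refine ⟨⟨0, 1, fun h => ?_⟩⟩
    have h1 : ((0 : AL M) : Fun) = ((1 : AL M) : Fun) := congrArg Subtype.val h
    have h2 := congrFun h1 ⟨Complex.I, by simp⟩
    exact zero_ne_one h2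
  have : NoZeroDivisors (AL M) := by
    refine ⟨fun {a b} h => ?_⟩
    have h1 : (a : Fun) * (b : Fun) = 0 := congrArg Subtype.val h
    rcases (isHol_of_mem_AL_aux a.2).eq_zero_or_eq_zero_of_mul_eq_zero
      (isHol_of_mem_AL_aux b.2) h1 with h2 | h2
    · exact Or.inl (Subtype.ext h2)
    · exact Or.inr (Subtype.ext h2)
  exact NoZeroDivisors.to_isDomain _

end Fermat.Agent.S24
end
end MergeWrap_S24_Hol
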