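import Mathlib
import Fermat.Prelude.Def_ModularCurve_ArithmeticGalois
import Fermat.Prelude.Def_ModularCurve_X0ModL
import Fermat.Agent.MUL.S24.GensExp

section MergeWrap_S24_EmbFHom -- from S24/EmbFHom.lean

set_option autoImplicit false
set_option linter.unusedVariables false

noncomputable section

namespace Fermat.Agent.S24

open UpperHalfPlane
open scoped MatrixGroups Manifold

namespace EmbFHom

/-! ### The expansion map on `AL M` -/

theorem exists_hasExp_of_mem_AL (M : ℕ) [NeZero M] {f : Fun} (hf : f ∈ AL M) :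
    ∃ a : LaurentSeries Kbar, HasExp M f a := by
  induction hf using Algebra.adjoin_induction with
  | mem x hx => exact exists_hasExp_of_mem_gens M hx
  | algebraMap c => exact ⟨_, HasExp.algebraMap M c⟩
  | add x y _ _ hx hy =>
    obtain ⟨a, ha⟩ := hx
    obtain ⟨b, hb⟩ := hy
    exact ⟨a + b, ha.add hb⟩
  | mul x y _ _ hx hy =>
    obtain ⟨a, ha⟩ := hx
    obtain ⟨b, hb⟩ := hy
    exact ⟨a * b, ha.mul hb⟩

/-- the expansion at `∞` of an element of `AL M`. -/
def expFun (M : ℕ) [NeZero M] (f : AL M) : LaurentSeries Kbar :=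
  (exists_hasExp_of_mem_AL M f.2).choose

theorem hasExp_expFun (M : ℕ) [NeZero M] (f : AL M) : HasExp M (f : Fun) (expFun M f) :=
  (exists_hasExp_of_mem_AL M f.2).choose_spec

theorem expFun_eq (M : ℕ) [NeZero M] (f : AL M) {a : LaurentSeries Kbar}
    (h : HasExp M (f : Fun) a) : expFun M f = a :=
  (hasExp_expFun M f).unique h

/-- the expansion at `∞` as an algebra homomorphism. -/
def expAL (M : ℕ) [NeZero M] : AL M →ₐ[Kbar] LaurentSeries Kbar where
  toFun := expFun M
  map_one' := by
    apply expFun_eq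
    have h := HasExp.algebraMap M (1 : Kbar)
    rwa [map_one, map_one] at h
  map_mul' f g := expFun_eq M _ ((hasExp_expFun M f).mul (hasExp_expFun M g))
  map_zero' := by
    apply expFun_eq
    have h := HasExp.algebraMap M (0 : Kbar)
    rwa [map_zero, map_zero] at h
  map_add' f g := expFun_eq M _ ((hasExp_expFun M f).add (hasExp_expFun M g))
  commutes' c := expFun_eq M _ (HasExp.algebraMap M c)

theorem expAL_apply (M : ℕ) [NeZero M] (f : AL M) : expAL M f = expFun M f := rfl

theorem hasExp_expAL (M : ℕ) [NeZero M] (f : AL M) : HasExp M (f : Fun) (expAL M f) :=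
  hasExp_expFun M f

theorem expAL_injective (M : ℕ) [NeZero M] : Function.Injective (expAL M) := by
  intro f g h
  apply Subtype.ext
  have hf := hasExp_expAL M f
  have hg := hasExp_expAL M g
  rw [h] at hf
  exact hf.fun_unique hg

/-- the expansion at `∞` on the field `LL M`. -/
def expLL (M : ℕ) [NeZero M] : LL M →ₐ[Kbar] LaurentSeries Kbar :=
  IsFractionRing.liftAlgHom (expAL_injective M)

theorem expLL_algebraMap (M : ℕ) [NeZero M] (f : AL M) :
    expLL M (algebraMap (AL M) (LL M) f) = expAL M f := by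
  unfold expLL
  rw [IsFractionRing.liftAlgHom_apply]
  exact IsFractionRing.lift_algebraMap _ _

theorem expLL_injective (M : ℕ) [NeZero M] : Function.Injective (expLL M) :=
  (expLL M).toRingHom.injective


/-! ### The generators `j_d` -/

/-- `j_d` as an element of `AL M`. -/
def jdAL (M d : ℕ) [NeZero d] (hd : d ∣ M) : AL M := ⟨jd d, jd_mem_AL hd⟩

/-- `j_d` as an element of `LL M`. -/
def jdLL (M d : ℕ) [NeZero d] (hd : d ∣ M) : LL M := algebraMap (AL M) (LL M) (jdAL M d hd)

theorem expLL_jdLL (M d : ℕ) [NeZero M] [NeZero d] (hd : d ∣ M) :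
    expLL M (jdLL M d hd) = ModularCurve.qExpand Kbar (M * d) (ModularCurve.jqModC Kbar) := by
  unfold jdLL
  rw [expLL_algebraMap]
  exact expFun_eq M _ (hasExp_jd M d hd)

theorem jd_one : jd 1 = jFun := by
  ext τ
  show jFun (scale 1 τ) = jFun τ
  congr 1
  ext
  simp

theorem jdAL_one (M : ℕ) : jdAL M 1 (one_dvd M) = jAL M :=
  Subtype.ext jd_one

theorem jdLL_one (M : ℕ) : jdLL M 1 (one_dvd M) = jLL M := by
  unfold jdLL jLL
  rw [jdAL_one]

/-- `θ = (q ↦ u^M)` on the generators of the Prelude's function field. -/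
theorem qExpand_coeffEmb_jqd (M d : ℕ) [NeZero M] [NeZero d] :
    ModularCurve.qExpandAlgHomC Kbar M
        (ModularCurve.coeffEmb Kbar (ModularCurve.qExpand ℚ d ModularCurve.jq)) =
      ModularCurve.qExpand Kbar (M * d) (ModularCurve.jqModC Kbar) := by
  rw [ModularCurve.qExpandAlgHomC_apply]
  unfold ModularCurve.coeffEmb
  rw [ModularCurve.coeffMap_qExpand, ← ModularCurve.jqModC_rat, ModularCurve.coeffMap_jqModC,
    ModularCurve.qExpand_qExpand]

/-- the generating set `{j_d : d ∣ N}` in `LL M`. -/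
def genSet (N M : ℕ) (hNM : N ∣ M) : Set (LL M) :=
  {y | ∃ (d : ℕ) (_ : NeZero d) (hd : d ∣ N), y = jdLL M d (hd.trans hNM)}

/-- the field `Kbar(j_d : d ∣ N)` inside `LL M`. -/
def genField (N M : ℕ) (hNM : N ∣ M) : IntermediateField Kbar (LL M) :=
  IntermediateField.adjoin Kbar (genSet N M hNM)

theorem jdLL_mem_genField (N M d : ℕ) (hNM : N ∣ M) [NeZero d] (hd : d ∣ N) :
    jdLL M d (hd.trans hNM) ∈ genField N M hNM :=
  IntermediateField.subset_adjoin Kbar _ ⟨d, ‹_›, hd, rfl⟩

theorem theta_coeffEmb_mem (N M : ℕ) [NeZero M] (hNM : N ∣ M)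
    {x : LaurentSeries ℚ} (hx : x ∈ ModularCurve.modularFunctionFieldFull N) :
    ModularCurve.qExpandAlgHomC Kbar M (ModularCurve.coeffEmb Kbar x) ∈
      (genField N M hNM).map (expLL M) := by
  unfold ModularCurve.modularFunctionFieldFull at hx
  induction hx using IntermediateField.adjoin_induction with
  | mem x hx =>
    obtain ⟨d, hdne, hd, rfl⟩ := hx
    rw [qExpand_coeffEmb_jqd, ← expLL_jdLL M d (hd.trans hNM)]
    exact (IntermediateField.mem_map _).mpr ⟨_, jdLL_mem_genField N M d hNM hd, rfl⟩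
  | algebraMap c =>
    have h1 : ModularCurve.qExpandAlgHomC Kbar M
        (ModularCurve.coeffEmb Kbar (algebraMap ℚ (LaurentSeries ℚ) c)) =
        ((c : ℚ) : LaurentSeries Kbar) := by
      rw [eq_ratCast, map_ratCast, map_ratCast]
    rw [h1]
    exact SubfieldClass.ratCast_mem _ c
  | add x y _ _ hx hy =>
    rw [map_add, map_add]
    exact add_mem hx hy
  | inv x _ hx =>
    rw [map_inv₀, map_inv₀]
    exact inv_mem hx
  | mul x y _ _ hx hy =>
    rw [map_mul, map_mul]
    exact mul_mem hx hy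

theorem map_theta_eq (N M : ℕ) [NeZero N] [NeZero M] (hNM : N ∣ M) :
    (ModularCurve.modularFunctionFieldBar N).map (ModularCurve.qExpandAlgHomC Kbar M) =
      (genField N M hNM).map (expLL M) := by
  apply le_antisymm
  · unfold ModularCurve.modularFunctionFieldBar ModularCurve.laurentBaseChange
    rw [IntermediateField.adjoin_map, IntermediateField.adjoin_le_iff]
    rintro _ ⟨_, ⟨x, hx, rfl⟩, rfl⟩
    exact theta_coeffEmb_mem N M hNM hx
  · unfold genField
    rw [IntermediateField.adjoin_map, IntermediateField.adjoin_le_iff]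
    rintro _ ⟨_, ⟨d, hdne, hd, rfl⟩, rfl⟩
    rw [expLL_jdLL, ← qExpand_coeffEmb_jqd]
    exact (IntermediateField.mem_map _).mpr
      ⟨_, ModularCurve.coeffEmb_mem_laurentBaseChange Kbar (ModularCurve.jqd_mem_full N hd), rfl⟩


/-! ### The embedding -/

/-- the embedding `φ = ψ⁻¹ ∘ θ` of the Prelude's function field in `LL M` (`N ∣ M`). -/
def embHom (N M : ℕ) [NeZero N] [NeZero M] (hNM : N ∣ M) :
    ↥(ModularCurve.modularFunctionFieldBar N) →ₐ[Kbar] LL M :=
  (genField N M hNM).val.comp
    ((((ModularCurve.modularFunctionFieldBar N).equivMap (ModularCurve.qExpandAlgHomC Kbar M)).trans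
      (IntermediateField.equivOfEq (map_theta_eq N M hNM))).trans
        ((genField N M hNM).equivMap (expLL M)).symm).toAlgHom

theorem embHom_mem (N M : ℕ) [NeZero N] [NeZero M] (hNM : N ∣ M)
    (x : ↥(ModularCurve.modularFunctionFieldBar N)) : embHom N M hNM x ∈ genField N M hNM :=
  Subtype.mem _

/-- `ψ (φ x) = θ x`. -/
theorem expLL_embHom (N M : ℕ) [NeZero N] [NeZero M] (hNM : N ∣ M)
    (x : ↥(ModularCurve.modularFunctionFieldBar N)) :
    expLL M (embHom N M hNM x) = ModularCurve.qExpand Kbar M (x : LaurentSeries Kbar) := by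
  set y := ((genField N M hNM).equivMap (expLL M)).symm
    ((IntermediateField.equivOfEq (map_theta_eq N M hNM))
      (((ModularCurve.modularFunctionFieldBar N).equivMap
        (ModularCurve.qExpandAlgHomC Kbar M)) x)) with hy
  have h1 : embHom N M hNM x = (y : LL M) := rfl
  have h2 : ((genField N M hNM).equivMap (expLL M)) y =
      (IntermediateField.equivOfEq (map_theta_eq N M hNM))
        (((ModularCurve.modularFunctionFieldBar N).equivMap
          (ModularCurve.qExpandAlgHomC Kbar M)) x) := by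
    rw [hy, AlgEquiv.apply_symm_apply]
  have h3 := congrArg (fun z : ↥((genField N M hNM).map (expLL M)) => (z : LaurentSeries Kbar)) h2
  simp only [IntermediateField.coe_equivMap_apply] at h3
  rw [h1, h3]
  rfl

/-- every element of the field generated by the `j_d` is a value of `φ`. -/
theorem exists_embHom_eq (N M : ℕ) [NeZero N] [NeZero M] (hNM : N ∣ M) {y : LL M}
    (hy : y ∈ genField N M hNM) :
    ∃ x : ↥(ModularCurve.modularFunctionFieldBar N), embHom N M hNM x = y := by
  have h1 : expLL M y ∈ (genField N M hNM).map (expLL M) :=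
    (IntermediateField.mem_map _).mpr ⟨y, hy, rfl⟩
  rw [← map_theta_eq N M hNM] at h1
  obtain ⟨x, hx, hxy⟩ := (IntermediateField.mem_map _).mp h1
  refine ⟨⟨x, hx⟩, ?_⟩
  apply expLL_injective M
  rw [expLL_embHom, ← hxy]
  rfl

theorem embHom_jq (N M : ℕ) [NeZero N] [NeZero M] (hNM : N ∣ M)
    (jB : ↥(ModularCurve.modularFunctionFieldBar N))
    (hjB : (jB : LaurentSeries Kbar) = ModularCurve.coeffEmb Kbar ModularCurve.jq) :
    embHom N M hNM jB = jLL M := by
  apply expLL_injective M
  rw [expLL_embHom, hjB, ← jdLL_one, expLL_jdLL, ← qExpand_coeffEmb_jqd,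
    ModularCurve.qExpand_one_apply]
  rfl

/-! ### The stabiliser -/

theorem smul_jdLL_eq_iff (M d : ℕ) [NeZero d] (hd : d ∣ M) (γ : SL(2, ℤ)) :
    γ • jdLL M d hd = jdLL M d hd ↔ γ • jd d = jd d := by
  unfold jdLL
  rw [LL.smul_algebraMap]
  constructor
  · intro h
    have h2 := IsFractionRing.injective (AL M) (LL M) h
    exact congrArg Subtype.val h2
  · intro h
    congr 1
    exact Subtype.ext h

theorem smul_eq_of_mem_genField (N M : ℕ) (hNM : N ∣ M) (γ : SL(2, ℤ))
    (h : ∀ (d : ℕ) (hd : NeZero d), d ∣ N → γ • jd d = jd d) {y : LL M}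
    (hy : y ∈ genField N M hNM) : γ • y = y := by
  unfold genField at hy
  induction hy using IntermediateField.adjoin_induction with
  | mem x hx =>
    obtain ⟨d, hdne, hd, rfl⟩ := hx
    exact (smul_jdLL_eq_iff M d (hd.trans hNM) γ).mpr (h d hdne hd)
  | algebraMap c =>
    rw [Algebra.algebraMap_eq_smul_one, smul_comm, smul_one]
  | add x y _ _ hx hy => rw [smul_add, hx, hy]
  | inv x _ hx => rw [smul_inv'', hx]
  | mul x y _ _ hx hy => rw [smul_mul', hx, hy]

/-- **AN-E, embedding part.** -/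
theorem exists_embF_hom (N : ℕ) [NeZero N] (jB : ↥(ModularCurve.modularFunctionFieldBar N))
    (hjB : (jB : LaurentSeries Kbar) = ModularCurve.coeffEmb Kbar ModularCurve.jq) :
    ∃ φ : ↥(ModularCurve.modularFunctionFieldBar N) →ₐ[Kbar] LL (2 * N),
      φ jB = jLL (2 * N) ∧
      ∀ γ : SL(2, ℤ), (∀ x, γ • φ x = φ x) ↔ ∀ d (hd : NeZero d), d ∣ N → γ • jd d = jd d := by
  have hNM : N ∣ 2 * N := Dvd.intro_left 2 rfl
  refine ⟨embHom N (2 * N) hNM, embHom_jq N (2 * N) hNM jB hjB, fun γ => ⟨fun h d hdne hd => ?_,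
    fun h x => smul_eq_of_mem_genField N (2 * N) hNM γ h (embHom_mem N (2 * N) hNM x)⟩⟩
  obtain ⟨x, hx⟩ := exists_embHom_eq N (2 * N) hNM (jdLL_mem_genField N (2 * N) d hNM hd)
  have h1 := h x
  rw [hx] at h1
  exact (smul_jdLL_eq_iff (2 * N) d (hd.trans hNM) γ).mp h1

end EmbFHom

end Fermat.Agent.S24
end
end MergeWrap_S24_EmbFHom
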