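import Mathlib
import Fermat.Prelude.Def_ModularCurve_ArithmeticGalois
import Fermat.Agent.MUL.S24.GensExp
import Fermat.Agent.MUL.S20.LevelOne

section MergeWrap_S24_EmbFStab -- from S24/EmbFStab.lean

set_option autoImplicit false

noncomputable section

namespace Fermat.Agent.S24

open UpperHalfPlane
open scoped MatrixGroups Manifold

namespace EmbFStab

open GensExp

theorem coeff_jNum_zero :
    PowerSeries.coeff 0 (PowerSeries.map (Int.castRingHom Kbar) ModularCurve.jNum) = 1 := by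
  rw [PowerSeries.coeff_map, PowerSeries.coeff_zero_eq_constantCoeff,
    ModularCurve.constantCoeff_jNum]
  simp

/-- the leading coefficient of `u^{-k} ∑ pₙ zⁿ z⁻¹ u^{kn}` -/
theorem coeff_lead (z : Kbar) (k : ℕ) (hk : 0 < k) (P : PowerSeries Kbar) :
    (HahnSeries.single (-(k : ℤ)) (1 : Kbar) *
      HahnSeries.ofPowerSeries ℤ Kbar (twist z k P)).coeff (-(k : ℤ))
      = PowerSeries.coeff 0 P * z⁻¹ := by
  rw [HahnSeries.coeff_single_mul, one_mul, sub_self,
    show (0 : ℤ) = ((0 : ℕ) : ℤ) from rfl, HahnSeries.ofPowerSeries_apply_coeff]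
  have := coeff_twist_mul z k hk P 0
  rw [mul_zero, pow_zero, mul_one] at this
  exact this

/-- below the leading term all coefficients vanish -/
theorem coeff_below (z : Kbar) (k : ℕ) (P : PowerSeries Kbar) {n : ℤ} (hn : n < -(k : ℤ)) :
    (HahnSeries.single (-(k : ℤ)) (1 : Kbar) *
      HahnSeries.ofPowerSeries ℤ Kbar (twist z k P)).coeff n = 0 := by
  rw [HahnSeries.coeff_single_mul, one_mul]
  exact ofPowerSeries_coeff_neg' _ (by omega)

/-- two such series with non-vanishing leading coefficients are equal only if the orders agree -/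
theorem order_eq_of_eq (z z' : Kbar) (hz : z ≠ 0) (hz' : z' ≠ 0) (k k' : ℕ) (hk : 0 < k)
    (hk' : 0 < k') (P : PowerSeries Kbar) (hP : PowerSeries.coeff 0 P = 1)
    (h : HahnSeries.single (-(k : ℤ)) (1 : Kbar) *
          HahnSeries.ofPowerSeries ℤ Kbar (twist z k P)
        = HahnSeries.single (-(k' : ℤ)) (1 : Kbar) *
          HahnSeries.ofPowerSeries ℤ Kbar (twist z' k' P)) :
    k = k' := by
  rcases lt_trichotomy k k' with hlt | heq | hgt
  · exfalso
    have h1 := coeff_lead z' k' hk' P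
    rw [← h, coeff_below z k P (by omega), hP, one_mul] at h1
    exact inv_ne_zero hz' h1.symm
  · exact heq
  · exfalso
    have h1 := coeff_lead z k hk P
    rw [h, coeff_below z' k' P (by omega), hP, one_mul] at h1
    exact inv_ne_zero hz h1.symm

theorem dvd_of_mem_Gamma0 {d : ℕ} {γ : SL(2, ℤ)} (h : γ ∈ CongruenceSubgroup.Gamma0 d) :
    (d : ℤ) ∣ γ 1 0 := by
  rw [CongruenceSubgroup.Gamma0_mem] at h
  exact (ZMod.intCast_zmod_eq_zero_iff_dvd _ _).mp h

theorem mem_Gamma0_of_dvd {d : ℕ} {γ : SL(2, ℤ)} (h : (d : ℤ) ∣ γ 1 0) :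
    γ ∈ CongruenceSubgroup.Gamma0 d := by
  rw [CongruenceSubgroup.Gamma0_mem]
  exact (ZMod.intCast_zmod_eq_zero_iff_dvd _ _).mpr h

/-- For `γ ∈ Γ₀(d)`: `d (γ τ) = σ (d τ)` with `σ ∈ SL(2,ℤ)`. -/
theorem exists_scale_smul (d : ℕ) [NeZero d] (γ : SL(2, ℤ))
    (h : γ ∈ CongruenceSubgroup.Gamma0 d) :
    ∃ σ : SL(2, ℤ), ∀ τ : ℍ, scale d (γ • τ) = σ • scale d τ := by
  obtain ⟨c', hc'⟩ := dvd_of_mem_Gamma0 h
  have hdet := sl2_det γ
  have hd : (d : ℂ) ≠ 0 := by exact_mod_cast NeZero.ne d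
  refine ⟨⟨!![γ 0 0, (d : ℤ) * γ 0 1; c', γ 1 1], ?_⟩, ?_⟩
  · rw [Matrix.det_fin_two_of]
    rw [hc'] at hdet
    linear_combination hdet
  · intro τ
    apply UpperHalfPlane.ext
    rw [coe_scale, coe_sl2_smul, coe_sl2_smul, coe_scale]
    have hden : (γ 1 0 : ℂ) * (τ : ℂ) + (γ 1 1 : ℂ) ≠ 0 := sl2_denom_ne_zero γ τ
    have hcC : (γ 1 0 : ℂ) = (d : ℂ) * (c' : ℂ) := by exact_mod_cast hc'
    simp only [Matrix.of_apply, Matrix.cons_val_zero,
      Matrix.cons_val_one, Matrix.cons_val', Matrix.cons_val_fin_one]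
    push_cast
    have hden' : (c' : ℂ) * ((d : ℂ) * (τ : ℂ)) + (γ 1 1 : ℂ) ≠ 0 := by
      have : (c' : ℂ) * ((d : ℂ) * (τ : ℂ)) + (γ 1 1 : ℂ)
          = (γ 1 0 : ℂ) * (τ : ℂ) + (γ 1 1 : ℂ) := by rw [hcC]; ring
      rw [this]; exact hden
    have hden'' : (c' : ℂ) * ((d : ℂ) * (τ : ℂ)) + (γ 1 1 : ℂ)
          = (γ 1 0 : ℂ) * (τ : ℂ) + (γ 1 1 : ℂ) := by rw [hcC]; ring
    rw [hden'', mul_div_assoc']
    congr 1
    ring

end EmbFStab

open GensExp EmbFStab

/-- The stabiliser of `j_d` in `SL(2,ℤ)` is `Γ₀(d)`. -/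
theorem smul_jd_eq_iff (d : ℕ) [NeZero d] (γ : SL(2, ℤ)) :
    γ • jd d = jd d ↔ γ ∈ CongruenceSubgroup.Gamma0 d := by
  have hd0 : 0 < d := Nat.pos_of_ne_zero (NeZero.ne d)
  constructor
  · intro h
    -- Hermite normal form of `γ⁻¹`
    obtain ⟨γ', a, e, b, ha, he, hae, he1, hτ⟩ := exists_hermite' d γ⁻¹
    have hed : e ∣ d := Dvd.intro_left a hae
    obtain ⟨m', hm'⟩ := hed
    have hm'pos : 0 < m' := by
      rcases Nat.eq_zero_or_pos m' with h0 | h0
      · rw [h0, mul_zero] at hm'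
        exact absurd hm' hd0.ne'
      · exact h0
    obtain ⟨z, hz⟩ := exists_iota_eq_of_pow_eq_one he (exp_two_pi_I_mul_div_pow b e he)
    have hz1 : ‖iota z‖ = 1 := by rw [hz]; exact norm_exp_two_pi_I_mul_div b e
    have hz0 : z ≠ 0 := by
      intro h0
      rw [h0, map_zero, norm_zero] at hz1
      exact zero_ne_one hz1
    have hφ : ∀ τ : ℍ, uParam 1 (aff a e b ha he τ) = iota z * uParam d τ ^ (a * m') := by
      intro τ
      rw [uParam_one_aff d a e m' b ha he hm' hm'pos, hz]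
    have h2 := hasExp_subst hasPExp_jFun (aff a e b ha he) z hz1 (a * m')
      (Nat.mul_pos ha hm'pos) hφ
    have hfun : (γ • jd d : Fun) = fun τ => jFun (aff a e b ha he τ) := by
      funext τ
      show jFun (scale d (γ⁻¹ • τ)) = _
      rw [hτ τ, jFun_smul_pt]
    rw [← hfun, h] at h2
    have h1 := hasExp_jd d d dvd_rfl
    rw [qExpand_jqModC] at h1
    have heq := HasExp.unique h1 h2
    have hk := order_eq_of_eq 1 z one_ne_zero hz0 (d * d) (a * m') (Nat.mul_pos hd0 hd0)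
      (Nat.mul_pos ha hm'pos) _ coeff_jNum_zero heq
    -- `d * d = a * m'`, `a * e = d`, `d = e * m'`  ⟹  `e = 1`
    have ham : a = m' := by
      have : e * a = e * m' := by rw [mul_comm, hae, hm']
      exact Nat.eq_of_mul_eq_mul_left he this
    have hda : d = a := by
      have : d * d = a * a := by rw [hk, ← ham]
      exact Nat.mul_self_inj.mp this
    have he1' : e = 1 := by
      have : a * e = a * 1 := by rw [hae, mul_one, hda]
      exact Nat.eq_of_mul_eq_mul_left ha this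
    have hdvd := he1 he1'
    have hinv : γ⁻¹ ∈ CongruenceSubgroup.Gamma0 d := mem_Gamma0_of_dvd hdvd
    have := inv_mem hinv
    rwa [inv_inv] at this
  · intro h
    obtain ⟨σ, hσ⟩ := exists_scale_smul d γ⁻¹ (inv_mem h)
    funext τ
    show jFun (scale d (γ⁻¹ • τ)) = jFun (scale d τ)
    rw [hσ τ, jFun_smul_pt]

theorem mem_Gamma0_iff_forall_smul_jd (N : ℕ) [NeZero N] (γ : SL(2, ℤ)) :
    γ ∈ CongruenceSubgroup.Gamma0 N ↔ ∀ d (hd : NeZero d), d ∣ N → γ • jd d = jd d := by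
  constructor
  · intro h d hd hdN
    rw [smul_jd_eq_iff]
    apply mem_Gamma0_of_dvd
    exact (Int.natCast_dvd_natCast.mpr hdN).trans (dvd_of_mem_Gamma0 h)
  · intro h
    exact (smul_jd_eq_iff N γ).mp (h N inferInstance dvd_rfl)

/-- Final assembly of `exists_embF` from the embedding (helper24's `exists_embF_hom`). -/
theorem exists_embF_of_hom (N : ℕ) [NeZero N] (jB : ↥(ModularCurve.modularFunctionFieldBar N))
    (h : ∃ φ : ↥(ModularCurve.modularFunctionFieldBar N) →ₐ[Kbar] LL (2 * N),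
      φ jB = jLL (2 * N) ∧
      ∀ γ : SL(2, ℤ), (∀ x, γ • φ x = φ x) ↔ ∀ d (hd : NeZero d), d ∣ N → γ • jd d = jd d) :
    ∃ φ : ↥(ModularCurve.modularFunctionFieldBar N) →ₐ[Kbar] LL (2 * N),
      φ jB = jLL (2 * N) ∧
      ∀ γ : SL(2, ℤ), γ ∈ CongruenceSubgroup.Gamma0 N ↔ ∀ x, γ • φ x = φ x := by
  obtain ⟨φ, h1, h2⟩ := h
  exact ⟨φ, h1, fun γ => (mem_Gamma0_iff_forall_smul_jd N γ).trans (h2 γ).symm⟩

end Fermat.Agent.S24
end
end MergeWrap_S24_EmbFStab
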