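import Mathlib
import Fermat.Agent.MUL.S24.LocalDiff
import Fermat.Agent.MUL.Orig.S24.Residue
import Fermat.Agent.MUL.Orig.S24.FundId
import Fermat.Agent.MUL.S20.JInjective

section MergeWrap_S24_RiemannHurwitz -- from S24/RiemannHurwitz.lean

set_option autoImplicit false
set_option linter.style.haveILetI false
set_option linter.unusedSectionVars false

/-!
# S24, ALG-H: Riemann-Hurwitz for `F / K(j)` from the number of places in the fibres

`degree_canonical_core` takes the fundamental identity (ALG-F) as explicit hypotheses.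
-/

noncomputable section

open KaehlerDifferential IntermediateField AlgebraicCurve Polynomial

namespace Fermat.Agent.S24Diff

open Fermat.Agent.S24Res

variable {K F : Type*} [Field K] [Field F] [Algebra K F]
variable [IsAlgClosed K] [CharZero K]

/-- degree of a divisor when all places have degree one -/
theorem degree_eq_sum_of_deg_eq_one (hdeg : ∀ v : Place K F, v.deg = 1) (D : Divisor K F)
    (T : Finset (Place K F)) (hT : D.support ⊆ T) :
    Divisor.degree D = ∑ v ∈ T, D v := by
  have h1 : Divisor.degree D = D.sum fun v n => n * (v.deg : ℤ) := by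
    simp [Divisor.degree, Finsupp.liftAddHom_apply]
  rw [h1, Finsupp.sum_of_support_subset D hT _ (fun v _ => by simp)]
  refine Finset.sum_congr rfl fun v _ => ?_
  rw [hdeg v]; simp

/-- if a sum of integers `≥ 1` over a finset equals its cardinality, all terms are `1`. -/
theorem eq_one_of_sum_eq_card {ι : Type*} (T : Finset ι) (f : ι → ℤ) (hf : ∀ i ∈ T, 1 ≤ f i)
    (hsum : ∑ i ∈ T, f i = T.card) : ∀ i ∈ T, f i = 1 := by
  by_contra hne
  push Not at hne
  obtain ⟨i, hi, hi1⟩ := hne
  have hlt : ∑ i ∈ T, (1 : ℤ) < ∑ i ∈ T, f i :=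
    Finset.sum_lt_sum hf ⟨i, hi, lt_of_le_of_ne (hf i hi) (Ne.symm hi1)⟩
  simp at hlt
  omega

/-- principal divisors exist and have degree zero, given the fundamental identity. -/
theorem exists_principal_divisor {x : F} (h : IsFunctionFieldOver K F x)
    (hzfin : ∀ y : F, Transcendental K y → {v : Place K F | 0 < v.ord y}.Finite)
    (hpfin : ∀ y : F, Transcendental K y → {v : Place K F | v.ord y < 0}.Finite)
    (hsum : ∀ (y : F) (hy : Transcendental K y),
      ∑ v ∈ (hzfin y hy).toFinset, v.ord y + ∑ v ∈ (hpfin y hy).toFinset, v.ord y = 0)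
    (f : F) (hf : f ≠ 0) :
    ∃ D : Divisor K F, (∀ v : Place K F, D v = v.ord f) ∧ Divisor.degree D = 0 := by
  classical
  by_cases hfc : f ∈ Set.range (algebraMap K F)
  · obtain ⟨a, rfl⟩ := hfc
    exact ⟨0, fun v => by rw [ord_algebraMap]; rfl, map_zero _⟩
  have hftr : Transcendental K f := fun halg => hfc (mem_range_of_isAlgebraic halg)
  set Z := (hzfin f hftr).toFinset with hZ
  set P := (hpfin f hftr).toFinset with hP
  have hZmem : ∀ v, v ∈ Z ↔ 0 < v.ord f := by intro v; simp [hZ]
  have hPmem : ∀ v, v ∈ P ↔ v.ord f < 0 := by intro v; simp [hP]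
  have hdisj : Disjoint Z P := by
    rw [Finset.disjoint_left]
    intro v hz hp
    have := (hZmem v).mp hz
    have := (hPmem v).mp hp
    omega
  let D : Divisor K F := Finsupp.onFinset (Z ∪ P) (fun v => v.ord f) (by
    intro v hv
    rw [Finset.mem_union, hZmem, hPmem]
    omega)
  have hD : ∀ v : Place K F, D v = v.ord f := fun v => rfl
  refine ⟨D, hD, ?_⟩
  have hsupp : D.support ⊆ Z ∪ P := Finsupp.support_onFinset_subset
  rw [degree_eq_sum_of_deg_eq_one (fun v => deg_eq_one h v) D (Z ∪ P) hsupp,
    Finset.sum_union hdisj]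
  simp only [hD]
  exact hsum f hftr

theorem degree_canonical_core {j : F} (h : IsFunctionFieldOver K F j)
    (hprin : ∀ f : F, f ≠ 0 → ∃ D : Divisor K F,
      (∀ v : Place K F, D v = v.ord f) ∧ Divisor.degree D = 0)
    (hzfin : ∀ a : K, {v : Place K F | 0 < v.ord (j - algebraMap K F a)}.Finite)
    (hzsum : ∀ a : K, ∑ v ∈ (hzfin a).toFinset, v.ord (j - algebraMap K F a)
      = Module.finrank K⟮j⟯ F)
    (hpfin : {v : Place K F | v.ord j < 0}.Finite)
    (hpsum : ∑ v ∈ hpfin.toFinset, v.ord j = -(Module.finrank K⟮j⟯ F : ℤ))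
    (S : Finset K) (n : K → ℕ) (ninf : ℕ)
    (hn : ∀ c ∈ S, Nat.card {v : Place K F // 0 < v.ord (j - algebraMap K F c)} = n c)
    (hgen : ∀ c, c ∉ S →
      Nat.card {v : Place K F // 0 < v.ord (j - algebraMap K F c)} = Module.finrank K⟮j⟯ F)
    (hinf : Nat.card {v : Place K F // v.ord j < 0} = ninf)
    (ω : Ω[F⁄K]) (hω : ω ≠ 0) (Dv : Divisor K F)
    (hDv : ∀ v : Place K F, Dv v = v.ordDifferential ω) :
    Divisor.degree Dv =
      ∑ c ∈ S, ((Module.finrank K⟮j⟯ F : ℤ) - n c) - Module.finrank K⟮j⟯ F - ninf := by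
  classical
  haveI := nontrivial_kaehler h
  have hjtr := h.transcendental
  have hjnc : j ∉ Set.range (algebraMap K F) := by
    rintro ⟨a, rfl⟩
    exact hjtr (isAlgebraic_algebraMap a)
  have hdeg : ∀ v : Place K F, v.deg = 1 := fun v => deg_eq_one h v
  set m : ℕ := Module.finrank K⟮j⟯ F with hm
  -- ω = c • D j
  obtain ⟨c, hc⟩ := exists_smul_D_eq h hjtr ω
  have hc0 : c ≠ 0 := by
    rintro rfl
    exact hω (by rw [← hc, zero_smul])
  -- κ v = ord_v (dj)
  set κ : Place K F → ℤ := fun v => v.ordDifferential (KaehlerDifferential.D K F j) with hκ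
  have hDvκ : ∀ v : Place K F, Dv v = v.ord c + κ v := by
    intro v
    haveI := dCoordGenerates h v
    rw [hDv v, ← hc]
    apply Place.ordDifferential_smul v hc0
    intro h0
    have := v.differentialCoeff_smul_dCoord (KaehlerDifferential.D K F j)
    rw [h0, zero_smul] at this
    exact D_ne_zero h hjtr this.symm
  obtain ⟨Dc, hDc, hDc0⟩ := hprin c hc0
  -- the divisor of `dj`
  set E : Divisor K F := Dv - Dc with hE
  have hEκ : ∀ v, E v = κ v := by
    intro v
    rw [hE, Finsupp.sub_apply, hDvκ v, hDc v]; ring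
  have hdegE : Divisor.degree Dv = Divisor.degree E := by
    rw [hE, map_sub, hDc0, sub_zero]
  rw [hdegE]
  -- the finsets of zeros and poles
  set Z : K → Finset (Place K F) := fun a => (hzfin a).toFinset with hZ
  set P : Finset (Place K F) := hpfin.toFinset with hP
  have hZmem : ∀ a v, v ∈ Z a ↔ 0 < v.ord (j - algebraMap K F a) := by
    intro a v; simp [hZ]
  have hPmem : ∀ v, v ∈ P ↔ v.ord j < 0 := by
    intro v; simp [hP]
  have hZcard : ∀ a, Nat.card {v : Place K F // 0 < v.ord (j - algebraMap K F a)}
      = (Z a).card := by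
    intro a
    exact (Nat.card_coe_set_eq _).trans (Set.ncard_eq_toFinset_card _ (hzfin a))
  have hPcard : Nat.card {v : Place K F // v.ord j < 0} = P.card := by
    exact (Nat.card_coe_set_eq _).trans (Set.ncard_eq_toFinset_card _ hpfin)
  -- values of κ
  have hκZ : ∀ a v, v ∈ Z a → κ v = v.ord (j - algebraMap K F a) - 1 := fun a v hv =>
    ordDifferential_D_of_pos h v j a ((hZmem a v).mp hv)
  have hκP : ∀ v, v ∈ P → κ v = v.ord j - 1 := fun v hv =>
    ordDifferential_D_of_neg h v j ((hPmem v).mp hv)
  -- zeros over generic points are simple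
  have hgen1 : ∀ a, a ∉ S → ∀ v ∈ Z a, v.ord (j - algebraMap K F a) = 1 := by
    intro a ha
    apply eq_one_of_sum_eq_card
    · intro v hv
      have := (hZmem a v).mp hv
      omega
    · rw [hzsum a, ← hZcard a, hgen a ha]
  -- disjointness
  have hdisjZ : ∀ a b, a ≠ b → Disjoint (Z a) (Z b) := by
    intro a b hab
    rw [Finset.disjoint_left]
    intro v hva hvb
    have ha := (hZmem a v).mp hva
    have hb := (hZmem b v).mp hvb
    have hane : j - algebraMap K F a ≠ 0 := fun h0 => by rw [h0] at ha; simp at ha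
    have hbne : j - algebraMap K F b ≠ 0 := fun h0 => by rw [h0] at hb; simp at hb
    have hsub : (j - algebraMap K F a) + -(j - algebraMap K F b) = algebraMap K F (b - a) := by
      rw [map_sub]; ring
    have hba : algebraMap K F (b - a) ≠ 0 := by
      rw [Ne, map_eq_zero, sub_eq_zero]; exact fun h => hab h.symm
    have hneg : v.ord (-(j - algebraMap K F b)) = v.ord (j - algebraMap K F b) := by
      have : -(j - algebraMap K F b) = (algebraMap K F (-1)) * (j - algebraMap K F b) := by
        simp
      rw [this, v.ord_mul (by simp) hbne, ord_algebraMap, zero_add]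
    have := ord_add_ge v hane (neg_ne_zero.mpr hbne) (by rw [hsub]; exact hba)
    rw [hsub, ord_algebraMap, hneg] at this
    have := min_le_iff.mp this
    omega
  have hdisjP : ∀ a, Disjoint P (Z a) := by
    intro a
    rw [Finset.disjoint_left]
    intro v hvP hva
    have ha := (hZmem a v).mp hva
    have hp := (hPmem v).mp hvP
    have h1 : j - algebraMap K F a ∈ v.toValuationSubring := mem_of_ord_nonneg v ha.le
    have h2 : j ∈ v.toValuationSubring := by
      have := v.toValuationSubring.add_mem _ _ h1 (v.algebraMap_mem' a)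
      simpa using this
    have := ord_nonneg_of_mem v h2
    omega
  -- support of E
  set T : Finset (Place K F) := P ∪ S.biUnion Z with hT
  have hsupp : E.support ⊆ T := by
    intro v hv
    rw [Finsupp.mem_support_iff, hEκ v] at hv
    rw [hT, Finset.mem_union, Finset.mem_biUnion]
    rcases exists_ord_sub_pos_or_neg h v hjnc with ⟨a, ha⟩ | hneg
    · right
      by_cases haS : a ∈ S
      · exact ⟨a, haS, (hZmem a v).mpr ha⟩
      · exfalso
        apply hv
        rw [hκZ a v ((hZmem a v).mpr ha), hgen1 a haS v ((hZmem a v).mpr ha)]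
        simp
    · left
      exact (hPmem v).mpr hneg
  rw [degree_eq_sum_of_deg_eq_one hdeg E T hsupp, hT,
    Finset.sum_union (by
      rw [Finset.disjoint_biUnion_right]
      exact fun a _ => hdisjP a),
    Finset.sum_biUnion (fun a _ b _ hab => hdisjZ a b hab)]
  have hsumP : ∑ v ∈ P, E v = -(m : ℤ) - ninf := by
    rw [Finset.sum_congr rfl (fun v hv => (hEκ v).trans (hκP v hv)), Finset.sum_sub_distrib,
      hpsum, Finset.sum_const, ← hinf, hPcard]
    simp
  have hsumZ : ∀ a ∈ S, ∑ v ∈ Z a, E v = (m : ℤ) - n a := by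
    intro a ha
    rw [Finset.sum_congr rfl (fun v hv => (hEκ v).trans (hκZ a v hv)), Finset.sum_sub_distrib,
      hzsum a, Finset.sum_const, ← hn a ha, hZcard a]
    simp
  rw [hsumP, Finset.sum_congr rfl hsumZ]
  ring

end Fermat.Agent.S24Diff
end
end MergeWrap_S24_RiemannHurwitz

section MergeWrap_S24_RHCounts -- from S24/RHCounts.lean

set_option autoImplicit false
set_option linter.style.haveILetI false
set_option linter.unusedSectionVars false

/-!
# S24, ALG-H: `degree_canonical_of_counts`

Riemann-Hurwitz for `F / K(j)` in terms of the number of places in the fibres of `j`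
(same statement as the stub in `AlgTargets.lean`).
-/

noncomputable section

open KaehlerDifferential IntermediateField AlgebraicCurve Polynomial

namespace Fermat.Agent.S24Diff

open Fermat.Agent.S24Res Fermat.Agent.S24Fund

variable {K F : Type*} [Field K] [Field F] [Algebra K F]
variable [IsAlgClosed K] [CharZero K]

/-- the class `HasPrincipalDivisors` of the Prelude holds for function fields in one variable. -/
theorem exists_principal_divisor' {x : F} (h : IsFunctionFieldOver K F x) (f : F) (hf : f ≠ 0) :
    ∃ D : Divisor K F, (∀ v : Place K F, D v = v.ord f) ∧ Divisor.degree D = 0 := by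
  have hz : ∀ y : F, Transcendental K y → {v : Place K F | 0 < v.ord y}.Finite := by
    intro y hy
    have := finite_zeros h hy 0
    simpa using this
  refine exists_principal_divisor h hz (fun y hy => finite_poles h hy) ?_ f hf
  intro y hy
  have h1 := sum_ord_zeros h hy 0
  have h2 := sum_ord_poles h hy
  have h3 : ∑ v ∈ (hz y hy).toFinset, v.ord y
      = ∑ v ∈ (finite_zeros h hy 0).toFinset, v.ord (y - algebraMap K F 0) := by
    refine Finset.sum_congr ?_ (fun v _ => by simp)
    ext v
    simp
  rw [h3, h1, h2]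
  ring

theorem hasPrincipalDivisors {x : F} (h : IsFunctionFieldOver K F x) :
    HasPrincipalDivisors K F :=
  ⟨fun f hf => exists_principal_divisor' h f hf⟩

/-- (H) Riemann-Hurwitz for `F / K(j)` in terms of the number of places in the fibres. -/
theorem degree_canonical_of_counts'
    (j : F) (hjtr : Transcendental K j) (hfin : FiniteDimensional K⟮j⟯ F)
    (S : Finset K) (n : K → ℕ) (ninf : ℕ)
    (hn : ∀ c ∈ S, Nat.card {v : Place K F // 0 < v.ord (j - algebraMap K F c)} = n c)
    (hgen : ∀ c, c ∉ S →
      Nat.card {v : Place K F // 0 < v.ord (j - algebraMap K F c)} = Module.finrank K⟮j⟯ F)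
    (hinf : Nat.card {v : Place K F // v.ord j < 0} = ninf)
    (ω : Ω[F⁄K]) (hω : ω ≠ 0) (Dv : Divisor K F)
    (hDv : ∀ v : Place K F, Dv v = v.ordDifferential ω) :
    Divisor.degree Dv =
      ∑ c ∈ S, ((Module.finrank K⟮j⟯ F : ℤ) - n c) - Module.finrank K⟮j⟯ F - ninf := by
  have h : IsFunctionFieldOver K F j := ⟨hjtr, hfin⟩
  exact degree_canonical_core h (exists_principal_divisor' h)
    (fun a => finite_zeros h hjtr a) (fun a => sum_ord_zeros h hjtr a)
    (finite_poles h hjtr) (sum_ord_poles h hjtr) S n ninf hn hgen hinf ω hω Dv hDv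

end Fermat.Agent.S24Diff
end
end MergeWrap_S24_RHCounts
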