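import Mathlib
import Fermat.Prelude.Def_AlgebraicCurve_CanonicalDivisor
import Fermat.Agent.MUL.Orig.S24.Interface
import Fermat.Agent.MUL.S24.RHCounts
import Fermat.Agent.MUL.Orig.S24.GaloisDatum
import Fermat.Agent.MUL.S24.ZeroPlaces
import Fermat.Agent.MUL.Lib.Deuring.Setup

section MergeWrap_S24_Glue -- from S24/Glue.lean

set_option autoImplicit false

/-!
# S24 glue: `degree_canonical_of_galois_datum'`

The statement of `Fermat.Agent.S24.degree_canonical_of_galois_datum` (Interface.lean), proved from
* `Fermat.Agent.S24Diff.degree_canonical_of_counts'` (Riemann-Hurwitz from the fibre counts),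
* `Fermat.Agent.S24Gal.finrank_eq_index` (`[F : K(j)] = [Γ : H]`),
* `Fermat.Agent.S24Fib.card_zeroPlaces` (places in one fibre = orbits of the local monodromy).
-/

noncomputable section

open KaehlerDifferential IntermediateField AlgebraicCurve

namespace Fermat.Agent.S24Glue

open Fermat.Agent.S24

variable {K F L Γ : Type*} [Field K] [Field F] [Algebra K F] [Field L] [Algebra K L]
    [Algebra F L] [IsScalarTower K F L] [Group Γ] [MulSemiringAction Γ L] [SMulCommClass Γ K L]

/-- constants are fixed. -/
theorem smul_algebraMap_const (g : Γ) (a : K) :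
    g • algebraMap F L (algebraMap K F a) = algebraMap F L (algebraMap K F a) := by
  rw [← IsScalarTower.algebraMap_apply K F L]
  exact smul_algebraMap g a

theorem smul_algebraMap_sub {j : F} (hj : ∀ g : Γ, g • algebraMap F L j = algebraMap F L j)
    (c : K) (g : Γ) :
    g • algebraMap F L (j - algebraMap K F c) = algebraMap F L (j - algebraMap K F c) := by
  rw [map_sub, smul_sub, hj, smul_algebraMap_const]

theorem smul_algebraMap_inv {j : F} (hj : ∀ g : Γ, g • algebraMap F L j = algebraMap F L j)
    (g : Γ) : g • algebraMap F L j⁻¹ = algebraMap F L j⁻¹ := by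
  rw [map_inv₀, smul_inv'', hj]

theorem adjoin_sub_const_eq (y : L) (c : K) :
    IntermediateField.adjoin K {y - algebraMap K L c} = IntermediateField.adjoin K {y} := by
  apply le_antisymm
  · rw [adjoin_simple_le_iff]
    exact sub_mem (mem_adjoin_simple_self K y) (IntermediateField.algebraMap_mem _ c)
  · rw [adjoin_simple_le_iff]
    have h1 : y - algebraMap K L c ∈ K⟮y - algebraMap K L c⟯ := mem_adjoin_simple_self K _
    have h2 := add_mem h1 (IntermediateField.algebraMap_mem K⟮y - algebraMap K L c⟯ c)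
    rwa [sub_add_cancel] at h2

theorem adjoin_inv_eq' (y : L) :
    IntermediateField.adjoin K {y⁻¹} = IntermediateField.adjoin K {y} := by
  apply le_antisymm
  · rw [adjoin_simple_le_iff]
    exact inv_mem (mem_adjoin_simple_self K y)
  · rw [adjoin_simple_le_iff]
    have hmem : (y⁻¹)⁻¹ ∈ K⟮y⁻¹⟯ := inv_mem (mem_adjoin_simple_self K y⁻¹)
    rwa [inv_inv] at hmem

theorem transcendental_sub_const {j : F} (hj : Transcendental K j) (c : K) :
    Transcendental K (j - algebraMap K F c) := by
  intro halg
  apply hj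
  have := halg.add (isAlgebraic_algebraMap (R := K) (A := F) c)
  rwa [sub_add_cancel] at this

theorem transcendental_inv' {j : F} (hj : Transcendental K j) : Transcendental K j⁻¹ :=
  fun halg => hj (by simpa using halg.inv)

theorem zpow_smul_of_trivial (g : Γ) (hg : ∀ x : L, g • x = x) (n : ℤ) (x : L) :
    (g ^ n) • x = x := by
  have hker : g ∈ (MulAction.toPermHom Γ L).ker := by
    rw [MonoidHom.mem_ker]
    ext y
    exact hg y
  have hn : g ^ n ∈ (MulAction.toPermHom Γ L).ker := Subgroup.zpow_mem _ hker n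
  rw [MonoidHom.mem_ker] at hn
  have := congrArg (fun σ : Equiv.Perm L => σ x) hn
  simpa using this

/-- if `g` acts trivially on `L`, the cyclic group it generates acts trivially on `Γ ⧸ H`,
so the number of orbits is the index. -/
theorem orbCount_eq_index_of_trivial (H : Subgroup Γ)
    (hH : ∀ g : Γ, g ∈ H ↔ ∀ x : F, g • algebraMap F L x = algebraMap F L x)
    (g : Γ) (hg : ∀ x : L, g • x = x) : orbCount H g = H.index := by
  have htriv : ∀ (k : Subgroup.zpowers g) (q : Γ ⧸ H), k • q = q := by
    rintro ⟨k, hk⟩ q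
    obtain ⟨n, rfl⟩ := Subgroup.mem_zpowers_iff.mp hk
    have hkL : ∀ x : L, (g ^ n) • x = x := zpow_smul_of_trivial g hg n
    induction q using QuotientGroup.induction_on with
    | H γ =>
      show (((g ^ n) * γ : Γ) : Γ ⧸ H) = (γ : Γ ⧸ H)
      rw [QuotientGroup.eq, hH]
      intro x
      rw [mul_smul, mul_inv_rev, mul_smul, inv_smul_eq_iff, inv_smul_eq_iff, hkL]
  unfold orbCount
  rw [Subgroup.index_eq_card]
  refine (Nat.card_congr (Equiv.ofBijective
    (Quotient.mk'' : Γ ⧸ H → MulAction.orbitRel.Quotient (Subgroup.zpowers g) (Γ ⧸ H))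
    ⟨?_, Quotient.mk''_surjective⟩)).symm
  intro a b hab
  rw [Quotient.eq''] at hab
  obtain ⟨k, hk⟩ := hab
  have hk' : k • b = a := hk
  rw [← hk', htriv]

/-- the glue: the statement of `Fermat.Agent.S24.degree_canonical_of_galois_datum`. -/
theorem degree_canonical_of_galois_datum'
    {K F L Γ : Type*} [Field K] [IsAlgClosed K] [CharZero K]
    [Field F] [Algebra K F] [Field L] [Algebra K L] [Algebra F L] [IsScalarTower K F L]
    [Group Γ] [MulSemiringAction Γ L] [SMulCommClass Γ K L]
    (j : F) (hjtr : Transcendental K j)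
    -- `Γ` acts through a finite quotient
    (hfin : ∃ Γ' : Subgroup Γ, Γ'.FiniteIndex ∧ ∀ g ∈ Γ', ∀ x : L, g • x = x)
    -- the invariants are `K(j)`
    (hj : ∀ g : Γ, g • algebraMap F L j = algebraMap F L j)
    (hfix : ∀ x : L, (∀ g : Γ, g • x = x) →
      x ∈ IntermediateField.adjoin K {algebraMap F L j})
    -- `H` is the pointwise stabiliser of `F`
    (H : Subgroup Γ)
    (hH : ∀ g : Γ, g ∈ H ↔ ∀ x : F, g • algebraMap F L x = algebraMap F L x)
    -- local data above the finite points `j = c`
    (w : K → Valuation L (WithZero (Multiplicative ℤ))) (s : K → ℕ) (g : K → Γ)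
    (hwK : ∀ c (a : K), a ≠ 0 → w c (algebraMap K L a) = 1)
    (hs : ∀ c, 0 < s c)
    (hw : ∀ c, w c (algebraMap F L (j - algebraMap K F c)) = WithZero.exp (-(s c : ℤ)))
    (hg : ∀ c x, w c (g c • x) = w c x)
    (hgs : ∀ c (k : ℤ), (∀ x : L, (g c ^ k) • x = x) ↔ (s c : ℤ) ∣ k)
    (S : Finset K) (hS : ∀ c, c ∉ S → s c = 1)
    -- local data above `j = ∞`
    (winf : Valuation L (WithZero (Multiplicative ℤ))) (sinf : ℕ) (ginf : Γ)
    (hwinfK : ∀ a : K, a ≠ 0 → winf (algebraMap K L a) = 1)
    (hsinf : 0 < sinf)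
    (hwinf : winf (algebraMap F L j) = WithZero.exp (sinf : ℤ))
    (hginf : ∀ x, winf (ginf • x) = winf x)
    (hgsinf : ∀ k : ℤ, (∀ x : L, (ginf ^ k) • x = x) ↔ (sinf : ℤ) ∣ k)
    -- a canonical divisor
    (ω : Ω[F⁄K]) (hω : ω ≠ 0) (Dv : Divisor K F)
    (hDv : ∀ v : Place K F, Dv v = v.ordDifferential ω) :
    Divisor.degree Dv =
      ∑ c ∈ S, ((H.index : ℤ) - orbCount H (g c)) - H.index - orbCount H ginf := by
  obtain ⟨hfd, hrank⟩ := Fermat.Agent.S24Gal.finrank_eq_index j hfin hj hfix H hH
  -- the fibre over a finite point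
  have hfibre : ∀ c : K, Nat.card {v : Place K F // 0 < v.ord (j - algebraMap K F c)} =
      orbCount H (g c) := by
    intro c
    refine Fermat.Agent.S24Fib.card_zeroPlaces (j - algebraMap K F c)
      (transcendental_sub_const hjtr c) hfin (smul_algebraMap_sub hj c) ?_ H hH (w c) (s c) (g c)
      (hwK c) (hs c) (hw c) (hg c) (hgs c)
    intro x hx
    have := hfix x hx
    rw [map_sub, ← IsScalarTower.algebraMap_apply K F L, adjoin_sub_const_eq]
    exact this
  -- the fibre over infinity
  have hinf : Nat.card {v : Place K F // v.ord j < 0} = orbCount H ginf := by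
    have hcard : Nat.card {v : Place K F // 0 < v.ord j⁻¹} = orbCount H ginf := by
      refine Fermat.Agent.S24Fib.card_zeroPlaces j⁻¹ (transcendental_inv' hjtr) hfin
        (smul_algebraMap_inv hj) ?_ H hH winf sinf ginf hwinfK hsinf ?_ hginf hgsinf
      · intro x hx
        have := hfix x hx
        rw [map_inv₀, adjoin_inv_eq']
        exact this
      · rw [map_inv₀, map_inv₀, hwinf, ← WithZero.exp_neg]
    rw [← hcard]
    refine Nat.card_congr (Equiv.subtypeEquivRight fun v => ?_)
    rw [Place.ord_inv]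
    omega
  have hmain := Fermat.Agent.S24Diff.degree_canonical_of_counts' j hjtr hfd S
    (fun c => orbCount H (g c)) (orbCount H ginf) (fun c _ => hfibre c) ?_ hinf ω hω Dv hDv
  · rw [hmain, hrank]
  · intro c hc
    rw [hfibre c, hrank]
    refine orbCount_eq_index_of_trivial H hH (g c) fun x => ?_
    have h1 := (hgs c 1).mpr (by rw [hS c hc]; simp)
    simpa using h1 x

end Fermat.Agent.S24Glue
end
end MergeWrap_S24_Glue
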